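import Fermat.Agent.H51.S58.Interfaces2
import Fermat.Agent.H81.Cyclo.Roots

/-!
# S58 GLUE, block EXTEND (helper54, row 1105)

`frobExtend (hCmp : CompareStatement) (hRel : FrobeniusRelationStatement)
  (hDiv : ExactOrderStatement) : FrobExtendStatement`:
a `lam`-adic representation `ρ` with `charpoly ρ(Frob_ℓ) = X² - a_ℓ(W) X + ℓ` for `ℓ ∉ S` satisfies
the same at EVERY good prime `q ≠ lam`.

Proof: for every `k`, CMP gives integers `t ≡ tr ρ(σ)`, `d ≡ det ρ(σ)` mod `lam ^ k` with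
`σ ζ = ζ ^ d` on `μ_{lam^k}` and `σ² - t σ + d = 0` on `E[lam ^ k]`.  A Frobenius at `q` raises
`lam ^ k`-th roots of unity to the `q`-th power, so `d ≡ q`; the Frobenius relation
`σ² - a_q σ + q = 0` on `E[lam ^ k]` and a point of exact order `lam ^ k` give `t ≡ a_q`.
Krull's intersection theorem in the discrete valuation ring `O` finishes the proof.
-/

set_option autoImplicit false

open Polynomial WeierstrassCurve WeierstrassCurve.Affine

namespace Fermat.Agent.H54.S58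

open Fermat.Agent.H51.S58

/-- In a discrete valuation ring in which `lam` is a nonunit, an element lying in all the ideals
`(lam ^ k)` is zero. -/
theorem eq_zero_of_forall_mem_span_pow {O : Type} [CommRing O] [IsDomain O]
    [IsDiscreteValuationRing O] {lam : ℕ} (hlam : (lam : O) ∈ IsLocalRing.maximalIdeal O)
    {x : O} (hx : ∀ k : ℕ, x ∈ Ideal.span {((lam ^ k : ℕ) : O)}) : x = 0 := by
  have hbot : ⨅ i : ℕ, (IsLocalRing.maximalIdeal O) ^ i = ⊥ :=
    Ideal.iInf_pow_eq_bot_of_isLocalRing _ (IsLocalRing.maximalIdeal.isMaximal O).ne_top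
  have hmem : x ∈ ⨅ i : ℕ, (IsLocalRing.maximalIdeal O) ^ i := by
    rw [Ideal.mem_iInf]
    intro k
    have h1 : Ideal.span {((lam ^ k : ℕ) : O)} ≤ (IsLocalRing.maximalIdeal O) ^ k := by
      rw [Ideal.span_singleton_le_iff_mem, Nat.cast_pow]
      exact Ideal.pow_mem_pow hlam k
    exact h1 (hx k)
  rw [hbot] at hmem
  exact hmem

/-- An integer multiple killing a point of exact order `n` is divisible by `n`. -/
theorem dvd_of_zsmul_eq_zero {W : WeierstrassCurve ℤ} {P : EPt W} {n : ℕ}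
    (hP : HasExactOrder P n) {m : ℤ} (hm : m • P = 0) : (n : ℤ) ∣ m := by
  have h1 : m.natAbs • P = 0 := by
    rcases Int.natAbs_eq m with h | h
    · rw [← natCast_zsmul, ← h]
      exact hm
    · rw [← natCast_zsmul]
      have : ((m.natAbs : ℕ) : ℤ) = -m := by omega
      rw [this, neg_smul, hm, neg_zero]
  have h2 := hP.2 _ h1
  exact Int.natCast_dvd.mpr h2

/-- **EXTEND.** -/
theorem frobExtend (hCmp : CompareStatement) (hRel : FrobeniusRelationStatement)
    (hDiv : ExactOrderStatement) : FrobExtendStatement := by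
  intro W hΔ lam _ hlam2 O _ _ _ _ hlamO ρ S hFrob q hq hqlam hgood A hA σ hσ
  have hlam : lam.Prime := Fact.out
  have hqlam' : ∀ k : ℕ, ¬ q ∣ lam ^ k := by
    intro k hk
    have := hq.dvd_of_dvd_pow hk
    exact hqlam ((Nat.prime_dvd_prime_iff_eq hq hlam).1 this)
  have hodd : ∀ k : ℕ, Odd (lam ^ k) := fun k =>
    (hlam.odd_of_ne_two hlam2).pow
  -- the congruences modulo `lam ^ k`
  have key : ∀ k : ℕ,
      LinearMap.trace O ρ.V (ρ.ρ σ) - ((W.apOfModel q : ℤ) : O) ∈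
          Ideal.span {((lam ^ k : ℕ) : O)} ∧
        LinearMap.det (ρ.ρ σ) - ((q : ℕ) : O) ∈ Ideal.span {((lam ^ k : ℕ) : O)} := by
    intro k
    obtain ⟨t, d, htr, hdet, hζ, hE⟩ := hCmp W hΔ lam hlam2 O hlamO ρ S hFrob σ k
    -- `d ≡ q` modulo `lam ^ k`
    have hn0 : lam ^ k ≠ 0 := pow_ne_zero k hlam.ne_zero
    have : NeZero ((lam ^ k : ℕ) : AlgebraicClosure ℚ) := ⟨by exact_mod_cast hn0⟩
    have : NeZero (lam ^ k) := ⟨hn0⟩
    obtain ⟨ζ, hζprim⟩ : ∃ ζ : AlgebraicClosure ℚ, IsPrimitiveRoot ζ (lam ^ k) :=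
      HasEnoughRootsOfUnity.exists_primitiveRoot (AlgebraicClosure ℚ) (lam ^ k)
    have h1 : σ ζ = ζ ^ q :=
      Fermat.Agent.H81.Cyclo.frobenius_root_of_unity hq hA hσ (hqlam' k) hζprim.pow_eq_one
    have h2 : σ ζ = ζ ^ d := hζ ζ hζprim.pow_eq_one
    have h3 : ζ ^ d = ζ ^ q := by rw [← h1, ← h2]
    have hfin : IsOfFinOrder ζ :=
      isOfFinOrder_iff_pow_eq_one.2 ⟨lam ^ k, Nat.pos_of_ne_zero hn0, hζprim.pow_eq_one⟩
    have h4 : d ≡ q [MOD lam ^ k] := by
      have := hfin.pow_eq_pow_iff_modEq.1 h3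
      rwa [← hζprim.eq_orderOf] at this
    have h5 : ((lam ^ k : ℕ) : ℤ) ∣ (d : ℤ) - (q : ℤ) := by
      have := (Nat.modEq_iff_dvd.1 h4.symm)
      exact this
    have hdq : ((d : ℕ) : O) - ((q : ℕ) : O) ∈ Ideal.span {((lam ^ k : ℕ) : O)} := by
      obtain ⟨c, hc⟩ := h5
      rw [Ideal.mem_span_singleton]
      refine ⟨(c : O), ?_⟩
      have := congrArg (fun z : ℤ => (z : O)) hc
      simpa using this
    -- `t ≡ a_q` modulo `lam ^ k`
    obtain ⟨P, hP⟩ := hDiv W hΔ lam hlam hlam2 k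
    have r1 := hRel W q hq hgood A hA σ hσ (lam ^ k) (hodd k) (hqlam' k) P hP.1
    have r2 := hE P hP.1
    have hdqP : ((d : ℤ) - (q : ℤ)) • P = 0 := by
      obtain ⟨c, hc⟩ := h5
      rw [hc, mul_comm, mul_smul, natCast_zsmul, hP.1]
      exact smul_zero (A := EPt W) c
    have r3 : (t - W.apOfModel q) • (σ • P) = 0 := by
      have e : (t - W.apOfModel q) • (σ • P) =
          (σ • σ • P - W.apOfModel q • σ • P + (q : ℤ) • P)
            - (σ • σ • P - t • σ • P + (d : ℤ) • P) + ((d : ℤ) - (q : ℤ)) • P := by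
        rw [sub_smul, sub_smul]
        abel
      rw [e, r1, r2, hdqP, sub_zero, add_zero]
    have r4 : (t - W.apOfModel q) • P = 0 := by
      have h : σ⁻¹ • ((t - W.apOfModel q) • (σ • P)) = 0 := by
        rw [r3]
        exact smul_zero (A := EPt W) σ⁻¹
      rw [WeierstrassCurve.Affine.Point.algEquiv_smul_zsmul, inv_smul_smul] at h
      exact h
    have r5 : ((lam ^ k : ℕ) : ℤ) ∣ t - W.apOfModel q := dvd_of_zsmul_eq_zero hP r4
    have hta : ((t : ℤ) : O) - ((W.apOfModel q : ℤ) : O) ∈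
        Ideal.span {((lam ^ k : ℕ) : O)} := by
      obtain ⟨c, hc⟩ := r5
      rw [Ideal.mem_span_singleton]
      refine ⟨(c : O), ?_⟩
      have := congrArg (fun z : ℤ => (z : O)) hc
      simpa using this
    refine ⟨?_, ?_⟩
    · have := Ideal.add_mem _ htr hta
      rwa [sub_add_sub_cancel] at this
    · have := Ideal.add_mem _ hdet hdq
      rwa [sub_add_sub_cancel] at this
  have htr : LinearMap.trace O ρ.V (ρ.ρ σ) = ((W.apOfModel q : ℤ) : O) :=
    sub_eq_zero.1 (eq_zero_of_forall_mem_span_pow hlamO fun k => (key k).1)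
  have hdet : LinearMap.det (ρ.ρ σ) = ((q : ℕ) : O) :=
    sub_eq_zero.1 (eq_zero_of_forall_mem_span_pow hlamO fun k => (key k).2)
  rw [s58_charpoly_eq ρ.finrank_eq (ρ.ρ σ), htr, hdet]

end Fermat.Agent.H54.S58
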